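/-
S59 pre-work / E7 (iv-a), node GE7-FLAT-GOOD, file 2 (helper5): **the frozen `IsFlatAt p` for any
adic representation whose finite levels sit inside the torsion of an elliptic curve with good
reduction at `p ≠ 2`.**

`W : WeierstrassCurve ℤ`, `¬ p ∣ W.Δ`, `ρ : GaloisRepAdic A` with `A` of finite residue field.

* `exists_level_embedding` : an equivariant additive map `π : ρ.V →+ M` with kernel `I • ⊤` induces
  an injective equivariant map on the level `ρ.V ⧸ I • ⊤` (the shape of `TateAbs.proj n`);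
* `isFlatAt_of_levels_gen` / `isFlatAt_of_levels` : if EVERY level `ρ.V ⧸ I • ⊤` (`A ⧸ I` finite)
  embeds additively and `G_ℚ`-equivariantly into some frozen `E[m]`, `m ≥ 1` (resp. `E[p ^ n]`),
  then `ρ.IsFlatAt p`;
* `isFlatAt_of_pow_levels` : `A` a DVR which is infinite — the levels `I = 𝔪 ^ n` suffice;
* `isFlatAt_of_proj` : the same from maps `π n : ρ.V →+ E[m n]` with kernel `𝔪 ^ n • ⊤`.
-/
import Mathlib
import Fermat.Agent.GE7.FlatGood.TorsPow
import Fermat.Agent.GF.EFlat.Generic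

set_option autoImplicit false
set_option linter.unusedSectionVars false

namespace Fermat.Agent.GE7.FlatGood

open Fermat.Agent.GH.Closure Fermat.Agent.GH.S32 Fermat.Agent.GF.EFrame Fermat.Agent.GF.EFlat
  IsLocalRing

local notation "Qb" => AlgebraicClosure ℚ
local notation "GQ" => (AlgebraicClosure ℚ ≃ₐ[ℚ] AlgebraicClosure ℚ)

variable {p : ℕ} [Fact p.Prime]

/-- `Δ ≠ 0` from good reduction at one prime. -/
theorem Δ_ne_zero_of_good (W : WeierstrassCurve ℤ) (hgood : ¬ (p : ℤ) ∣ W.Δ) : W.Δ ≠ 0 :=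
  fun h => hgood (h ▸ dvd_zero _)

/-- the frozen `E[m]` is finite. -/
theorem finite_torsion_frozen (W : WeierstrassCurve ℤ) (hΔ : W.Δ ≠ 0) (m : ℕ) (hm : 1 ≤ m) :
    Finite (Submodule.torsionBy ℤ (Efrozen W).Point (m : ℤ)) := by
  have hΔ' : (Efrozen W).Δ ≠ 0 := by
    change ((W.map (Int.castRingHom ℚ)).map (algebraMap ℚ Qb)).Δ ≠ 0
    rw [WeierstrassCurve.map_Δ, WeierstrassCurve.map_Δ]
    simpa using hΔ
  exact Fermat.Agent.GE.Tors.finite_torsionBy (W := Efrozen W) hΔ' m hm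

section Level

variable {A : Type} [CommRing A] [IsLocalRing A]

/-- an equivariant additive map out of `ρ.V` with kernel `I • ⊤` embeds the level `ρ.V ⧸ I • ⊤`. -/
theorem exists_level_embedding (ρ : GaloisRepAdic A) (I : Ideal A) {M : Type*} [AddCommGroup M]
    (act : GQ → M →+ M) (π : ρ.V →+ M)
    (hker : ∀ v : ρ.V, π v = 0 ↔ v ∈ I • (⊤ : Submodule A ρ.V))
    (heq : ∀ (σ : GQ) (v : ρ.V), π (ρ.ρ σ v) = act σ (π v)) :
    ∃ j : (ρ.V ⧸ (I • (⊤ : Submodule A ρ.V))) →+ M, Function.Injective j ∧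
      ∀ (σ : GQ) (x : ρ.V ⧸ (I • (⊤ : Submodule A ρ.V))),
        j (ρ.levelAction I σ x) = act σ (j x) := by
  let N : Submodule A ρ.V := I • (⊤ : Submodule A ρ.V)
  have hle : N.toAddSubgroup ≤ π.ker := fun v hv => (hker v).2 hv
  let j : (ρ.V ⧸ N) →+ M := QuotientAddGroup.lift N.toAddSubgroup π hle
  have hj : ∀ v : ρ.V, j (Submodule.Quotient.mk v) = π v := fun v => rfl
  refine ⟨j, ?_, ?_⟩
  · rw [injective_iff_map_eq_zero]
    intro x hx
    obtain ⟨v, rfl⟩ := Submodule.Quotient.mk_surjective N x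
    rw [hj] at hx
    exact (Submodule.Quotient.mk_eq_zero N).2 ((hker v).1 hx)
  · intro σ x
    obtain ⟨v, rfl⟩ := Submodule.Quotient.mk_surjective N x
    have h1 : ρ.levelAction I σ (Submodule.Quotient.mk v) =
        Submodule.Quotient.mk (p := N) (ρ.ρ σ v) := rfl
    rw [h1, hj, hj, heq]

/-- **the plug, general level**: all finite levels embed in some frozen `E[m]`, `m ≥ 1`, of a curve
with good reduction at `p ≠ 2` ⟹ frozen `IsFlatAt p`. -/
theorem isFlatAt_of_levels_gen (hres : Finite (ResidueField A)) (ρ : GaloisRepAdic A)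
    (W : WeierstrassCurve ℤ) (hp2 : p ≠ 2) (hgood : ¬ (p : ℤ) ∣ W.Δ)
    (h : ∀ I : Ideal A, Finite (A ⧸ I) → ∃ (m : ℕ) (_ : 1 ≤ m)
      (j : (ρ.V ⧸ (I • (⊤ : Submodule A ρ.V))) →+
        Submodule.torsionBy ℤ (Efrozen W).Point (m : ℤ)),
      Function.Injective j ∧ ∀ (σ : GQ) (x : ρ.V ⧸ (I • (⊤ : Submodule A ρ.V))),
        j (ρ.levelAction I σ x) = σ • j x) :
    ρ.IsFlatAt p := by
  rw [isFlatAt_iff]
  refine ⟨hres, fun I hI => ?_⟩
  obtain ⟨m, hm, j, hj, hjeq⟩ := h I hI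
  have hfin := finite_torsion_frozen W (Δ_ne_zero_of_good W hgood) m hm
  have : Finite (ρ.V ⧸ (I • (⊤ : Submodule A ρ.V))) := Finite.of_injective j hj
  have H : HasFinOrder p (levelActAdd ρ I) :=
    (hasFinOrder_torsion_level W hp2 hgood m hm).of_injective j hj (fun σ x => hjeq σ x)
  exact flatMod_of_hasFinOrder H

/-- **the plug** (the shape of board 6619 (B) = the conclusion of helper17's
`GE7/DictW/FlatLevels.rhoW_levels`): all finite levels embed in some frozen `E[p ^ n]`. -/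
theorem isFlatAt_of_levels (hres : Finite (ResidueField A)) (ρ : GaloisRepAdic A)
    (W : WeierstrassCurve ℤ) (hp2 : p ≠ 2) (hgood : ¬ (p : ℤ) ∣ W.Δ)
    (h : ∀ I : Ideal A, Finite (A ⧸ I) → ∃ (n : ℕ)
      (j : (ρ.V ⧸ (I • (⊤ : Submodule A ρ.V))) →+
        Submodule.torsionBy ℤ (Efrozen W).Point ((p ^ n : ℕ) : ℤ)),
      Function.Injective j ∧ ∀ (σ : GQ) (x : ρ.V ⧸ (I • (⊤ : Submodule A ρ.V))),
        j (ρ.levelAction I σ x) = σ • j x) :
    ρ.IsFlatAt p := by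
  refine isFlatAt_of_levels_gen hres ρ W hp2 hgood fun I hI => ?_
  obtain ⟨n, j, hj, hjeq⟩ := h I hI
  exact ⟨p ^ n, Nat.one_le_pow _ _ (Fact.out : p.Prime).pos, j, hj, hjeq⟩

end Level

section DVR

variable {A : Type} [CommRing A] [IsDomain A] [IsDiscreteValuationRing A]

/-- in an infinite DVR with finite residue field (e.g. `ℤ_[p]`) the ideals of finite index are the
powers of the maximal ideal. -/
theorem exists_eq_maximalIdeal_pow [Infinite A] (I : Ideal A) (hI : Finite (A ⧸ I)) :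
    ∃ n : ℕ, I = maximalIdeal A ^ n := by
  have hne : I ≠ ⊥ := by
    rintro rfl
    have : Finite A := Finite.of_equiv _ (RingEquiv.quotientBot A).toEquiv
    exact not_finite A
  obtain ⟨ϖ, hϖ⟩ := IsDiscreteValuationRing.exists_irreducible A
  obtain ⟨n, hn⟩ := IsDiscreteValuationRing.ideal_eq_span_pow_irreducible hne hϖ
  refine ⟨n, ?_⟩
  rw [hn, hϖ.maximalIdeal_eq, Ideal.span_singleton_pow]

/-- **DVR coefficients**: the levels `𝔪 ^ n` suffice. -/
theorem isFlatAt_of_pow_levels [Infinite A] (hres : Finite (ResidueField A))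
    (ρ : GaloisRepAdic A) (W : WeierstrassCurve ℤ) (hp2 : p ≠ 2) (hgood : ¬ (p : ℤ) ∣ W.Δ)
    (h : ∀ n : ℕ, ∃ (m : ℕ) (_ : 1 ≤ m)
      (j : (ρ.V ⧸ ((maximalIdeal A ^ n) • (⊤ : Submodule A ρ.V))) →+
        Submodule.torsionBy ℤ (Efrozen W).Point (m : ℤ)),
      Function.Injective j ∧
        ∀ (σ : GQ) (x : ρ.V ⧸ ((maximalIdeal A ^ n) • (⊤ : Submodule A ρ.V))),
          j (ρ.levelAction (maximalIdeal A ^ n) σ x) = σ • j x) :
    ρ.IsFlatAt p := by
  refine isFlatAt_of_levels_gen hres ρ W hp2 hgood fun I hI => ?_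
  obtain ⟨n, rfl⟩ := exists_eq_maximalIdeal_pow I hI
  exact h n

/-- **DVR coefficients, projection form** (the shape of `TateAbs.proj n` / `ker_proj`): additive
equivariant maps `π n : ρ.V →+ E[m n]` with kernel `𝔪 ^ n • ⊤`. -/
theorem isFlatAt_of_proj [Infinite A] (hres : Finite (ResidueField A))
    (ρ : GaloisRepAdic A) (W : WeierstrassCurve ℤ) (hp2 : p ≠ 2) (hgood : ¬ (p : ℤ) ∣ W.Δ)
    (m : ℕ → ℕ) (hm : ∀ n, 1 ≤ m n)
    (π : ∀ n : ℕ, ρ.V →+ Submodule.torsionBy ℤ (Efrozen W).Point (m n : ℤ))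
    (hker : ∀ (n : ℕ) (v : ρ.V), π n v = 0 ↔ v ∈ (maximalIdeal A ^ n) • (⊤ : Submodule A ρ.V))
    (heq : ∀ (n : ℕ) (σ : GQ) (v : ρ.V), π n (ρ.ρ σ v) = σ • π n v) :
    ρ.IsFlatAt p := by
  refine isFlatAt_of_pow_levels hres ρ W hp2 hgood fun n => ?_
  obtain ⟨j, hj, hjeq⟩ := exists_level_embedding ρ (maximalIdeal A ^ n) (actTorsion W (m n)) (π n)
    (hker n) (fun σ v => heq n σ v)
  exact ⟨m n, hm n, j, hj, fun σ x => hjeq σ x⟩

end DVR

section Padic

/-- **`ℤ_[p]` coefficients, projection form**: `π n : ρ.V →+ E[p ^ n]` additive, equivariant, with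
kernel `p ^ n • ⊤`. -/
theorem isFlatAt_padic_of_proj (ρ : GaloisRepAdic ℤ_[p]) (W : WeierstrassCurve ℤ) (hp2 : p ≠ 2)
    (hgood : ¬ (p : ℤ) ∣ W.Δ)
    (π : ∀ n : ℕ, ρ.V →+ Submodule.torsionBy ℤ (Efrozen W).Point ((p ^ n : ℕ) : ℤ))
    (hker : ∀ (n : ℕ) (v : ρ.V), π n v = 0 ↔
      v ∈ (Ideal.span {(p : ℤ_[p]) ^ n}) • (⊤ : Submodule ℤ_[p] ρ.V))
    (heq : ∀ (n : ℕ) (σ : GQ) (v : ρ.V), π n (ρ.ρ σ v) = σ • π n v) :
    ρ.IsFlatAt p := by
  have hp : p.Prime := Fact.out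
  have hres : Finite (ResidueField ℤ_[p]) :=
    Finite.of_equiv _ (PadicInt.residueField (p := p)).symm.toEquiv
  have hmax : ∀ n : ℕ, maximalIdeal ℤ_[p] ^ n = Ideal.span {(p : ℤ_[p]) ^ n} := fun n => by
    rw [PadicInt.maximalIdeal_eq_span_p, Ideal.span_singleton_pow]
  refine isFlatAt_of_proj hres ρ W hp2 hgood (fun n => p ^ n)
    (fun n => Nat.one_le_pow _ _ hp.pos) π (fun n v => ?_) heq
  rw [hmax n]
  exact hker n v

end Padic

end Fermat.Agent.GE7.FlatGood
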