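/-
S59 pre-work / E7 (iv-a), node GE7-FLAT-GOOD, file 3 (helper5): **`T_p(W)` is FLAT at a good prime
`p ≠ 2`, in the FROZEN sense** — the `hflat` binder of helper17's
`GE7/DictW/Dict.rhoWO_isFlatAt` / `DictPlug.condFL_rhoWO`.

`rhoW_isFlatAt hΔ hp2 hgood : (rhoW W p hΔ).IsFlatAt p`
= `Plug.isFlatAt_of_levels` ∘ helper17 `FlatLevels.rhoW_levels`.
-/
import Mathlib
import Fermat.Agent.GE7.FlatGood.Plug
import Fermat.Agent.GE7.DictW.FlatLevels

set_option autoImplicit false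

namespace Fermat.Agent.GE7.FlatGood

open Fermat.Agent.GE7.DictW.Inst Fermat.Agent.GE7.DictW.FlatLevels IsLocalRing

variable {W : WeierstrassCurve ℤ} {p : ℕ} [Fact p.Prime]

/-- the residue field of `ℤ_[p]` is finite. -/
theorem finite_residueField_padicInt : Finite (ResidueField ℤ_[p]) :=
  Finite.of_equiv _ (PadicInt.residueField (p := p)).symm.toEquiv

/-- **`T_p(W)` is flat at a good prime `p ≠ 2`** (frozen `IsFlatAt`). -/
theorem rhoW_isFlatAt (hΔ : W.Δ ≠ 0) (hp2 : p ≠ 2) (hgood : ¬ (p : ℤ) ∣ W.Δ) :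
    (rhoW W p hΔ).IsFlatAt p :=
  isFlatAt_of_levels finite_residueField_padicInt (rhoW W p hΔ) W hp2 hgood
    (fun I hI => rhoW_levels hΔ I hI)

end Fermat.Agent.GE7.FlatGood
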